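import Fermat.Agent.S59.H563.OldSpec
import Fermat.Agent.S48.H368.Emb

/-!
# Row S59, cell NM, leaf NM-OLD, sub-leaf OLD-DESCENT (helper63)

`oldDescent : H563.OldDescentStatement`, i.e. `H563.OldCStatement → NM.OldStatement`:
the statement OLD over `ℂ` implies OLD over every field `K` of characteristic `0`.

Proof.  Let `K₀ ⊆ K` be the subfield generated by the values of `x`, `y` and `a`: it is
countable, hence embeds into `ℂ` (`S48.H368.nonempty_algHom_complex`), `ι : K₀ → ℂ`.  The classes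
`ι ∘ x`, `ι ∘ y` are eigenclasses over `ℂ` for the system `ι ∘ a` (the Hecke transfer and the
degeneracy maps commute with post-composition by additive maps).  Apply OLD over `ℂ` and compose
the `z_i` with a `K₀`-linear retraction `ℂ → K₀` of `ι`.
-/

set_option autoImplicit false

open CongruenceSubgroup Cardinal
open scoped MatrixGroups

namespace Fermat.Agent.S59.H63

open Fermat.Agent.S59.NM Fermat.Agent.S41.Spec Fermat.Agent.S29.H642

/-- Post-composition by an additive map preserves cuspidal classes. -/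
theorem isCuspidal_comp63 {A B : Type*} [AddCommGroup A] [AddCommGroup B] {n : ℕ}
    (π : A →+ B) {φ : Additive (Gamma0 n) →+ A} (h : IsCuspidal φ) :
    IsCuspidal (π.comp φ) := by
  refine ⟨fun γ hγ => ?_, fun γ hγ => ?_⟩
  · rw [AddMonoidHom.comp_apply, h.1 γ hγ, map_zero]
  · rw [AddMonoidHom.comp_apply, h.2 γ hγ, map_zero]

/-- An injective additive map reflects cuspidal classes. -/
theorem isCuspidal_of_comp63 {A B : Type*} [AddCommGroup A] [AddCommGroup B] {n : ℕ}
    (π : A →+ B) (hπ : Function.Injective π) {φ : Additive (Gamma0 n) →+ A}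
    (h : IsCuspidal (π.comp φ)) : IsCuspidal φ := by
  refine ⟨fun γ hγ => hπ ?_, fun γ hγ => hπ ?_⟩
  · have := h.1 γ hγ
    rwa [AddMonoidHom.comp_apply, ← map_zero π] at this
  · have := h.2 γ hγ
    rwa [AddMonoidHom.comp_apply, ← map_zero π] at this

/-- Eigenclasses are transported by an additive map which is semilinear for the eigenvalues. -/
theorem isEigenclass_comp63 {A B : Type} [CommRing A] [CommRing B] {n : ℕ} {S : Finset ℕ}
    {a : ℕ → A} {b : ℕ → B} (π : A →+ B) (hπ : ∀ (l : ℕ) (v : A), π (a l * v) = b l * π v)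
    {x : Additive (Gamma0 n) →+ A} (hx : IsEigenclass n S a x) :
    IsEigenclass n S b (π.comp x) := by
  refine ⟨isCuspidal_comp63 π hx.1, fun l _ hl hlS => ?_⟩
  rw [heckeTransfer_comp, hx.2 l hl hlS]
  refine AddMonoidHom.ext fun γ => ?_
  simp only [AddMonoidHom.comp_apply, AddMonoidHom.smul_apply, smul_eq_mul, hπ]

/-- Eigenclasses are reflected by an injective additive map which is semilinear for the
eigenvalues. -/
theorem isEigenclass_of_comp63 {A B : Type} [CommRing A] [CommRing B] {n : ℕ} {S : Finset ℕ}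
    {a : ℕ → A} {b : ℕ → B} (π : A →+ B) (hinj : Function.Injective π)
    (hπ : ∀ (l : ℕ) (v : A), π (a l * v) = b l * π v)
    {x : Additive (Gamma0 n) →+ A} (hx : IsEigenclass n S b (π.comp x)) :
    IsEigenclass n S a x := by
  refine ⟨isCuspidal_of_comp63 π hinj hx.1, fun l _ hl hlS => ?_⟩
  have h := hx.2 l hl hlS
  rw [heckeTransfer_comp] at h
  refine AddMonoidHom.ext fun γ => hinj ?_
  have h2 := DFunLike.congr_fun h γ
  simp only [AddMonoidHom.comp_apply, AddMonoidHom.smul_apply, smul_eq_mul] at h2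
  rw [h2, AddMonoidHom.smul_apply, smul_eq_mul, hπ]

/-- The degeneracy maps `P₁, P₂, P₃` commute with post-composition. -/
theorem P_comp63 {A B : Type*} [AddCommGroup A] [AddCommGroup B] (N q : ℕ) (π : A →+ B)
    (φ : Additive (Gamma0 N) →+ A) :
    P₁ N q (π.comp φ) = π.comp (P₁ N q φ) ∧ P₂ N q (π.comp φ) = π.comp (P₂ N q φ) ∧
      P₃ N q (π.comp φ) = π.comp (P₃ N q φ) :=
  ⟨rfl, rfl, rfl⟩

/-- **OLD-DESCENT.** -/
theorem oldDescent : H563.OldDescentStatement := by
  intro hC K _ _ N q hN hq hqN S hqS hNS a hx y hy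
  obtain ⟨x, hx0, hx⟩ := hx
  classical
  -- the subfield generated by the values
  let s : Set K := (Set.range fun γ : Additive (Gamma0 N) => x γ) ∪
    (Set.range fun γ : Additive (Gamma0 (N * q * q)) => y γ) ∪ Set.range a
  let K₀ : Subfield K := Subfield.closure s
  have hxs : ∀ γ, x γ ∈ K₀ := fun γ =>
    Subfield.subset_closure (Or.inl (Or.inl ⟨γ, rfl⟩))
  have hys : ∀ γ, y γ ∈ K₀ := fun γ =>
    Subfield.subset_closure (Or.inl (Or.inr ⟨γ, rfl⟩))
  have has : ∀ l, a l ∈ K₀ := fun l => Subfield.subset_closure (Or.inr ⟨l, rfl⟩)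
  have hcG : ∀ n : ℕ, Countable (Additive (Gamma0 n)) := fun n =>
    Function.Injective.countable (β := Fin 2 → Fin 2 → ℤ)
      (f := fun γ : Additive (Gamma0 n) =>
        fun i j => ((Additive.toMul γ : Gamma0 n) : SL(2, ℤ)) i j)
      (fun γ γ' h => by
        have h1 : (Additive.toMul γ : Gamma0 n) = Additive.toMul γ' :=
          Subtype.ext (Subtype.ext (Matrix.ext fun i j => congrFun (congrFun h i) j))
        exact Additive.toMul.injective h1)
  have := hcG N
  have := hcG (N * q * q)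
  have hscount : s.Countable :=
    ((Set.countable_range _).union (Set.countable_range _)).union (Set.countable_range _)
  have hK₀ : #K₀ ≤ 𝔠 := by
    have h1 : #K₀ ≤ max #s ℵ₀ := Subfield.cardinalMk_closure_le_max s
    have h2 : #s ≤ ℵ₀ := hscount.le_aleph0
    exact (h1.trans (max_le h2 le_rfl)).trans aleph0_le_continuum
  -- the embedding into `ℂ`
  have : FaithfulSMul ℤ K₀ :=
    (faithfulSMul_iff_algebraMap_injective ℤ K₀).mpr (by
      intro m n hmn
      have : ((m : K₀) : K) = ((n : K₀) : K) := congrArg _ hmn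
      exact_mod_cast this)
  have : FaithfulSMul ℤ ℂ :=
    (faithfulSMul_iff_algebraMap_injective ℤ ℂ).mpr (by
      intro m n hmn
      exact_mod_cast hmn)
  obtain ⟨ι'⟩ := Fermat.Agent.S48.H368.nonempty_algHom_complex (O := ℤ) (E := K₀) hK₀
  let ι : K₀ →+* ℂ := ι'.toRingHom
  have hι : Function.Injective ι := ι.injective
  -- the restricted classes
  let x₀ : Additive (Gamma0 N) →+ K₀ := x.codRestrict K₀ hxs
  let y₀ : Additive (Gamma0 (N * q * q)) →+ K₀ := y.codRestrict K₀ hys
  let a₀ : ℕ → K₀ := fun l => ⟨a l, has l⟩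
  have hsub : Function.Injective (K₀.subtype : K₀ →+ K) := Subtype.val_injective
  have ex : (K₀.subtype : K₀ →+ K).comp x₀ = x := AddMonoidHom.ext fun γ => rfl
  have ey : (K₀.subtype : K₀ →+ K).comp y₀ = y := AddMonoidHom.ext fun γ => rfl
  have hx₀ : IsEigenclass N S a₀ x₀ :=
    isEigenclass_of_comp63 (b := a) (K₀.subtype : K₀ →+ K) hsub (fun l v => rfl)
      (x := x₀) (ex.symm ▸ hx)
  have hy₀ : IsEigenclass (N * q * q) (insert q S) a₀ y₀ :=
    isEigenclass_of_comp63 (b := a) (K₀.subtype : K₀ →+ K) hsub (fun l v => rfl)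
      (x := y₀) (ey.symm ▸ hy)
  have hxC : IsEigenclass N S (fun l => ι (a₀ l)) ((ι : K₀ →+ ℂ).comp x₀) :=
    isEigenclass_comp63 (ι : K₀ →+ ℂ) (fun l v => map_mul ι _ _) hx₀
  have hyC : IsEigenclass (N * q * q) (insert q S) (fun l => ι (a₀ l))
      ((ι : K₀ →+ ℂ).comp y₀) :=
    isEigenclass_comp63 (ι : K₀ →+ ℂ) (fun l v => map_mul ι _ _) hy₀
  have hxC0 : (ι : K₀ →+ ℂ).comp x₀ ≠ 0 := by
    intro h0
    apply hx0
    refine AddMonoidHom.ext fun γ => ?_
    have h1 := DFunLike.congr_fun h0 γ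
    simp only [AddMonoidHom.comp_apply, AddMonoidHom.zero_apply] at h1
    have h2 : x₀ γ = 0 := hι (by rw [map_zero]; exact h1)
    have h3 : ((x₀ γ : K₀) : K) = 0 := by rw [h2]; rfl
    exact h3
  obtain ⟨z₁, z₂, z₃, hz₁, hz₂, hz₃, hyz⟩ :=
    hC N q hN hq hqN S hqS hNS (fun l => ι (a₀ l)) ⟨_, hxC0, hxC⟩ _ hyC
  -- the retraction
  let _ : Algebra K₀ ℂ := ι.toAlgebra
  obtain ⟨lam, hlam⟩ := LinearMap.exists_leftInverse_of_injective (Algebra.linearMap K₀ ℂ)
    (LinearMap.ker_eq_bot.mpr (by exact hι))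
  have hlamι : ∀ c : K₀, lam (ι c) = c := fun c => LinearMap.congr_fun hlam c
  have hlamsmul : ∀ (c : K₀) (v : ℂ), lam (ι c * v) = c * lam v := by
    intro c v
    have : ι c * v = c • v := (Algebra.smul_def c v).symm
    rw [this, map_smul, smul_eq_mul]
  let π : ℂ →+ K := (K₀.subtype : K₀ →+ K).comp lam.toAddMonoidHom
  have hπ : ∀ (l : ℕ) (v : ℂ), π (ι (a₀ l) * v) = a l * π v := by
    intro l v
    show ((lam (ι (a₀ l) * v) : K₀) : K) = a l * ((lam v : K₀) : K)
    rw [hlamsmul]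
    rfl
  refine ⟨π.comp z₁, π.comp z₂, π.comp z₃, isEigenclass_comp63 π hπ hz₁,
    isEigenclass_comp63 π hπ hz₂, isEigenclass_comp63 π hπ hz₃, ?_⟩
  rw [(P_comp63 N q π z₁).1, (P_comp63 N q π z₂).2.1, (P_comp63 N q π z₃).2.2,
    ← AddMonoidHom.comp_add, ← AddMonoidHom.comp_add, ← hyz]
  refine AddMonoidHom.ext fun γ => ?_
  show y γ = ((lam (ι (y₀ γ)) : K₀) : K)
  rw [hlamι]
  rfl

end Fermat.Agent.S59.H63
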