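import Fermat.Agent.S59.H63.OldDescent
import Fermat.Agent.S59.H563.OldC

/-!
# Row S59, cell NM, leaf NM-OLD: `NM.OldStatement`, unconditional

`old63 : NM.OldStatement` = OLD over `ℂ` (`H563.oldC563`, helper563) + OLD-DESCENT
(`H63.oldDescent`, helper63).
-/

set_option autoImplicit false

namespace Fermat.Agent.S59.H63

/-- **NM-OLD**, unconditional. -/
theorem old63 : Fermat.Agent.S59.NM.OldStatement :=
  oldDescent Fermat.Agent.S59.H563.oldC563

end Fermat.Agent.S59.H63
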